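import Fermat.Agent.HilbertN.Symbol

/-!
# The Hilbert symbol is nondegenerate

The elements with trivial symbol against everything are the local `n`-th powers: if the
decomposition group is trivial, the root is approximated by elements of `K`.
-/

set_option autoImplicit false
set_option linter.unusedSectionVars false
set_option linter.style.haveILetI false

noncomputable section

open NumberField IsDedekindDomain Finset WithZero IsMulCommutative
open FA.ArtinRec FA.NormResidue
open FA.HasseCyclic (nearOne mem_nearOne)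
open scoped Pointwise Classical

namespace FA.HilbertN

universe u

variable {K : Type u} [Field K] [NumberField K]

/-- At a prime that splits completely every element of order `0` is close to one of `K`. -/
theorem exists_close_of_split {L : Type*} [Field L] [NumberField L] [Algebra K L] [IsGalois K L]
    {v : HeightOneSpectrum (𝓞 K)} (hr : ¬ IsRam L v) (h1 : artinAt L v = 1) {z : L}
    (hz : ∀ Q : HeightOneSpectrum (𝓞 L), belowP K Q = v → Q.valuation L z ≤ 1) (m : ℕ) :
    ∃ (Q : HeightOneSpectrum (𝓞 L)) (r : K), belowP K Q = v ∧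
      Q.valuation L (z - algebraMap K L r) ≤ exp (-(m : ℤ)) := by
  obtain ⟨Q, hQ, hτ⟩ := artinAt_spec (L := L) v
  rw [h1] at hτ
  have he : eIdx K Q = 1 := eIdx_eq_one (by rwa [hQ])
  obtain ⟨s, a, hs, hsa⟩ := exists_clear (v := v) hz
  have hval : ∀ x : 𝓞 K, Q.valuation L (algebraMap K L x) = v.valuation K (x : K) := fun x => by
    by_cases hx : x = 0
    · rw [hx, show ((0 : 𝓞 K) : K) = 0 from rfl, map_zero, map_zero, map_zero]
    · rw [show (x : K) = (intU x hx : K) from rfl, ← baseU_val, valuation_eq_exp, valuation_eq_exp,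
        ord_baseU, he, hQ, Nat.cast_one, one_mul]
  have hmem : ∀ x : 𝓞 K, algebraMap (𝓞 K) (𝓞 L) x ∈ Q.asIdeal ^ m → x ∈ v.asIdeal ^ m :=
    fun x hx => by
      rw [← HeightOneSpectrum.intValuation_le_pow_iff_mem, ← HeightOneSpectrum.valuation_of_algebraMap (K := L)] at hx
      rw [← HeightOneSpectrum.intValuation_le_pow_iff_mem, ← HeightOneSpectrum.valuation_of_algebraMap (K := K)]
      exact (hval x).symm.trans_le hx
  have hcard : Ideal.absNorm (v.asIdeal ^ m) = Ideal.absNorm (Q.asIdeal ^ m) := by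
    have hN := congrArg Ideal.absNorm (relNorm_of_frob_one (K := K) hτ)
    rw [Ideal.absNorm_relNorm, hQ] at hN
    rw [map_pow, map_pow, hN]
  rw [Ideal.absNorm_apply, Submodule.cardQuot_apply, Ideal.absNorm_apply,
    Submodule.cardQuot_apply] at hcard
  haveI : Finite (𝓞 K ⧸ v.asIdeal ^ m) :=
    Ideal.finiteQuotientOfFreeOfNeBot _ (pow_ne_zero _ v.ne_bot)
  haveI : Finite (𝓞 L ⧸ Q.asIdeal ^ m) :=
    Ideal.finiteQuotientOfFreeOfNeBot _ (pow_ne_zero _ Q.ne_bot)
  have hle : v.asIdeal ^ m ≤ (Q.asIdeal ^ m).comap (algebraMap (𝓞 K) (𝓞 L)) := fun x hx => by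
    rw [Ideal.mem_comap, ← HeightOneSpectrum.intValuation_le_pow_iff_mem,
      ← HeightOneSpectrum.valuation_of_algebraMap (K := L)]
    refine (hval x).trans_le ?_
    rwa [HeightOneSpectrum.valuation_of_algebraMap, HeightOneSpectrum.intValuation_le_pow_iff_mem]
  obtain ⟨c, hc⟩ := ((Nat.bijective_iff_injective_and_card _).2
    ⟨Ideal.quotientMap_injective' (H := hle) fun x hx => hmem x hx, hcard⟩).2
      (Ideal.Quotient.mk (Q.asIdeal ^ m) a)
  obtain ⟨c, rfl⟩ := Ideal.Quotient.mk_surjective c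
  rw [Ideal.quotientMap_mk, Ideal.Quotient.eq] at hc
  have hs0 : (s : K) ≠ 0 := fun h =>
    hs (by rw [RingOfIntegers.coe_eq_zero_iff.1 h]; exact v.asIdeal.zero_mem)
  refine ⟨Q, (c : K) / s, hQ, ?_⟩
  have hvs : Q.valuation L (algebraMap K L s) = 1 := by
    rw [hval, HeightOneSpectrum.valuation_of_algebraMap,
      HeightOneSpectrum.intValuation_eq_one_iff]
    exact hs
  have hd : z - algebraMap K L ((c : K) / s) =
      -(((algebraMap (𝓞 K) (𝓞 L) c - a : 𝓞 L) : L) / algebraMap K L s) := by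
    have hs' : algebraMap K L s ≠ 0 := (map_ne_zero _).2 hs0
    rw [map_div₀, show ((algebraMap (𝓞 K) (𝓞 L) c - a : 𝓞 L) : L) =
      ((algebraMap (𝓞 K) (𝓞 L) c : 𝓞 L) : L) - (a : L) from rfl, ← hsa,
      show ((algebraMap (𝓞 K) (𝓞 L) c : 𝓞 L) : L) = algebraMap K L c from rfl]
    field_simp
    ring
  rw [hd, Valuation.map_neg, map_div₀, hvs, div_one, HeightOneSpectrum.valuation_of_algebraMap,
    HeightOneSpectrum.intValuation_le_pow_iff_mem]
  exact hc

variable (n : ℕ) [NeZero n] [HasEnoughRootsOfUnity K n]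

/-- A root in a field where `v` splits completely makes `b` a local power. -/
theorem exists_pow_close_of_stabilizer {v : HeightOneSpectrum (𝓞 K)} {b : Kˣ}
    {Q : HeightOneSpectrum (𝓞 (RootOne n b))} (hQ : belowP K Q = v)
    (hD : MulAction.stabilizer (RootOne n b ≃ₐ[K] RootOne n b) Q.asIdeal = ⊥) (k : ℕ) :
    ∃ c : Kˣ, b / c ^ n ∈ nearOne v k := by
  set L := RootOne n b
  obtain ⟨hr, h1⟩ := split_of_stabilizer_eq_bot hQ hD
  set β : Lˣ := Units.mk0 _ (root_ne_zero n (root_pow n b))
  have hβ : β ^ n = baseU b := Units.ext (root_pow n b)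
  have he : ∀ R, belowP K R = v → eIdx K R = 1 := fun R hR => eIdx_eq_one (by rwa [hR])
  set i := ord Q β
  have hi : ∀ R, belowP K R = v → ord R β = i := fun R hR => by
    have h2 := ord_pow R β n
    have h3 := ord_pow Q β n
    rw [hβ, ord_baseU, he R hR, hR] at h2
    rw [hβ, ord_baseU, he Q hQ, hQ] at h3
    exact mul_left_cancel₀ (Nat.cast_ne_zero.2 (NeZero.ne n)) (h2.symm.trans h3)
  obtain ⟨π, hπ⟩ := exists_ord_eq_one v
  set z : Lˣ := β / baseU (π ^ i)
  have hz : ∀ R, belowP K R = v → ord R z = 0 := fun R hR => by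
    rw [ord_div, ord_baseU, he R hR, hR, hi R hR, ord_zpow, hπ]
    ring
  obtain ⟨R, r, hR, hr'⟩ := exists_close_of_split hr h1 (z := (z : L)) (fun R hR => by
    rw [valuation_eq_exp, hz R hR, neg_zero, exp_zero]) (k + 1)
  have hzv : R.valuation L (z : L) = 1 := by rw [valuation_eq_exp, hz R hR, neg_zero, exp_zero]
  have hrv : R.valuation L (algebraMap K L r) = 1 := by
    rw [show algebraMap K L r = (z : L) + -((z : L) - algebraMap K L r) by ring,
      Valuation.map_add_eq_of_lt_left _ (by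
        rw [Valuation.map_neg, hzv]
        exact hr'.trans_lt (by rw [← exp_zero, exp_lt_exp]; omega)), hzv]
  have hr0 : r ≠ 0 := fun h => by simp [h] at hrv
  set ρ : Kˣ := Units.mk0 r hr0
  refine ⟨ρ * π ^ i, ?_⟩
  set q : Kˣ := b / (ρ * π ^ i) ^ n
  have hq : baseU q = (z / baseU ρ) ^ n := by
    rw [show z / baseU ρ = β / baseU (ρ * π ^ i) by
      rw [map_mul, div_div, mul_comm], div_pow, hβ, ← map_pow, ← map_div]
  rw [mem_nearOne]
  by_cases h0 : (q : K) - 1 = 0
  · rw [h0, map_zero]; exact zero_le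
  have hd : R.valuation L (algebraMap K L ((q : K) - 1)) ≤ exp (-((k + 1 : ℕ) : ℤ)) := by
    have hsub : R.valuation L (((z / baseU ρ : Lˣ) : L) - 1) ≤ exp (-((k + 1 : ℕ) : ℤ)) := by
      rw [Units.val_div_eq_div_val, baseU_val, show (ρ : K) = r from rfl,
        div_sub_one ((map_ne_zero _).2 hr0), map_div₀, hrv, div_one]
      exact hr'
    have hw1 : R.valuation L ((z / baseU ρ : Lˣ) : L) = 1 := by
      rw [Units.val_div_eq_div_val, map_div₀, hzv, baseU_val, show (ρ : K) = r from rfl, hrv,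
        div_one]
    rw [map_sub, map_one, ← baseU_val, hq, Units.val_pow_eq_pow_val,
      ← mul_geom_sum, map_mul]
    refine (mul_le_of_le_one_right zero_le ?_).trans hsub
    exact Valuation.map_sum_le _ fun j _ => by rw [map_pow, hw1, one_pow]
  rw [show ((q : K) - 1) = ((Units.mk0 _ h0 : Kˣ) : K) from rfl, ← baseU_val, valuation_eq_exp,
    ord_baseU, he R hR, hR, Nat.cast_one, one_mul] at hd
  rw [show ((q : K) - 1) = ((Units.mk0 _ h0 : Kˣ) : K) from rfl, valuation_eq_exp]
  exact hd

/-- **Nondegeneracy**: trivial against everything iff a local `n`-th power. -/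
theorem forall_hilbertSymbol_eq_one_iff (v : HeightOneSpectrum (𝓞 K)) (b : Kˣ) :
    (∀ a, hilbertSymbol n v a b = 1) ↔ ∀ k : ℕ, ∃ c : Kˣ, b / c ^ n ∈ nearOne v k := by
  constructor
  · intro h k
    obtain ⟨Q, hQ⟩ := exists_belowP K (RootOne n b) v
    refine exists_pow_close_of_stabilizer n hQ ?_ k
    rw [← range_normSymbol hQ, MonoidHom.range_eq_bot_iff]
    exact MonoidHom.ext fun a =>
      (map_eq_one_iff _ (kummerChar_root_injective n b)).1 (h a)
  · intro h a
    obtain ⟨k, hk⟩ := exists_level_hilbertSymbol n v a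
    obtain ⟨c, hc⟩ := h k
    rw [← mul_div_cancel (c ^ n) b, hilbertSymbol_mul_right, hilbertSymbol_pow_right, one_mul]
    exact (hk _ hc).2

end FA.HilbertN

end
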