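import Fermat.Agent.HilbertN.Reciprocity
import Fermat.Agent.HilbertN.Nondegenerate

/-!
# Reciprocity for primary elements

An element close enough to `1` at a prime is a local `n`-th power, uniformly; so for `n > 2` and `α`
congruent to `1` modulo a fixed power of `n` the two residue symbols agree.
-/

set_option autoImplicit false
set_option linter.unusedSectionVars false
set_option linter.style.haveILetI false

noncomputable section

open NumberField IsDedekindDomain Finset WithZero
open FA.ArtinRec
open FA.HasseCyclic (nearOne mem_nearOne exists_pow_step nearOne_anti)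
open scoped Classical

namespace FA.HilbertN

universe u

variable {K : Type u} [Field K] [NumberField K] (n : ℕ) [NeZero n] [HasEnoughRootsOfUnity K n]

/-- **A level for all arguments.** -/
theorem exists_uniform_level (v : HeightOneSpectrum (𝓞 K)) : ∃ k : ℕ,
    ∀ a ∈ nearOne v k, ∀ b, hilbertSymbol n v a b = 1 := by
  obtain ⟨k₀, hk₀⟩ := exists_pow_step v (NeZero.ne n)
  refine ⟨k₀, fun a ha b => ?_⟩
  have key : ∀ i, ∃ c : Kˣ, a / c ^ n ∈ nearOne v (k₀ + i) := fun i => by
    induction i with
    | zero => exact ⟨1, by simpa using ha⟩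
    | succ i ih =>
      obtain ⟨c, hc⟩ := ih
      obtain ⟨d, hd⟩ := hk₀ _ (by omega) _ hc
      exact ⟨c * d, by rw [mul_pow, ← div_div]; exact hd⟩
  have h := (forall_hilbertSymbol_eq_one_iff n v a).2 (fun k => by
    obtain ⟨c, hc⟩ := key k
    exact ⟨c, nearOne_anti v (by omega) hc⟩) b
  rw [hilbertSymbol_symm, h, inv_one]

/-- The primes dividing `n`. -/
theorem finite_dividing : {v : HeightOneSpectrum (𝓞 K) | (n : 𝓞 K) ∈ v.asIdeal}.Finite :=
  (Ideal.finite_factors (I := Ideal.span {(n : 𝓞 K)}) (by simpa using NeZero.ne n)).subset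
    fun _ hv => Ideal.dvd_span_singleton.2 hv

/-- **Reciprocity for primary elements.** -/
theorem exists_primary_reciprocity (hn : 2 < n) : ∃ k : ℕ, ∀ (α β : 𝓞 K) (hα : α ≠ 0) (hβ : β ≠ 0),
    α - 1 ∈ Ideal.span {(n : 𝓞 K)} ^ k →
    (∀ v : HeightOneSpectrum (𝓞 K), (n : 𝓞 K) ∉ v.asIdeal → α ∉ v.asIdeal ∨ β ∉ v.asIdeal) →
      residueProd n α (intU β hβ) = residueProd n β (intU α hα) := by
  choose k hk using exists_uniform_level (K := K) n
  set B := (finite_dividing (K := K) n).toFinset
  refine ⟨B.sup k + 1, fun α β hα hβ hcong hco => ?_⟩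
  have h := residueProd_reciprocity n hα hβ hco
  rw [wildPart_of_two_lt n hn, finprod_eq_one_of_forall_eq_one fun v => ?_, mul_inv_eq_one] at h
  · exact h
  split_ifs with hv
  · refine hk v _ (nearOne_anti v (Finset.le_sup (f := k) ((finite_dividing n).mem_toFinset.2 hv))
      (mem_nearOne.2 ?_)) _
    rw [intU_val, show (α : K) - 1 = algebraMap (𝓞 K) K (α - 1) by rw [map_sub, map_one],
      HeightOneSpectrum.valuation_of_algebraMap, HeightOneSpectrum.intValuation_le_pow_iff_mem]
    exact Ideal.pow_right_mono ((Ideal.span_singleton_le_iff_mem _).2 hv) _ hcong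
  · rfl

end FA.HilbertN

end
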