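import Fermat.Agent.HilbertN.Residue

/-!
# The general reciprocity law of power residues

Outside `n` the Hilbert symbol is given by residue symbols, so the product formula says that
`(α / β) (β / α)⁻¹` is the product of the `(α, β)_v` over the primes dividing `n` and the infinite
places.
-/

set_option autoImplicit false
set_option linter.unusedSectionVars false
set_option linter.style.haveILetI false

noncomputable section

open NumberField IsDedekindDomain Finset
open FA.ArtinRec FA.NormResidue
open scoped Classical

namespace FA.HilbertN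

universe u

variable {K : Type u} [Field K] [NumberField K] (n : ℕ) [NeZero n] [HasEnoughRootsOfUnity K n]

/-- **The residue symbol** `(x / b)` for the part of `b` prime to `n`. -/
def residueProd (x : 𝓞 K) (b : Kˣ) : rootsOfUnity n K :=
  ∏ᶠ v, if (n : 𝓞 K) ∈ v.asIdeal then 1 else residueSymbol n v x ^ ord v b

/-- The product of the Hilbert symbols over the places dividing `n` and the infinite ones. -/
def wildPart (a b : Kˣ) : rootsOfUnity n K :=
  (∏ᶠ v, if (n : 𝓞 K) ∈ v.asIdeal then hilbertSymbol n v a b else 1) *
    ∏ w : InfinitePlace K, hilbertSymbolInf n w a b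

theorem residueProd_finite_support (x : 𝓞 K) (b : Kˣ) :
    (Function.mulSupport fun v : HeightOneSpectrum (𝓞 K) =>
      if (n : 𝓞 K) ∈ v.asIdeal then 1 else residueSymbol n v x ^ ord v b).Finite :=
  (finite_ord_ne_zero b).subset fun v hv h => hv (by simp [h])

theorem residueProd_mul_right (x : 𝓞 K) (b b' : Kˣ) :
    residueProd n x (b * b') = residueProd n x b * residueProd n x b' := by
  rw [residueProd, residueProd, residueProd,
    ← finprod_mul_distrib (residueProd_finite_support n x b) (residueProd_finite_support n x b')]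
  refine finprod_congr fun v => ?_
  split_ifs
  · rw [one_mul]
  · rw [ord_mul, zpow_add]

theorem residueProd_eq_one {x : 𝓞 K} {b : Kˣ}
    (h : ∀ v : HeightOneSpectrum (𝓞 K), (n : 𝓞 K) ∉ v.asIdeal → ord v b = 0) :
    residueProd n x b = 1 :=
  finprod_eq_one_of_forall_eq_one fun v => by
    split_ifs with hn
    · rfl
    · rw [h v hn, zpow_zero]

/-- **The general reciprocity law of `n`-th power residues.** -/
theorem residueProd_reciprocity {α β : 𝓞 K} (hα : α ≠ 0) (hβ : β ≠ 0)
    (hco : ∀ v : HeightOneSpectrum (𝓞 K), (n : 𝓞 K) ∉ v.asIdeal → α ∉ v.asIdeal ∨ β ∉ v.asIdeal) :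
    residueProd n α (intU β hβ) * (residueProd n β (intU α hα))⁻¹ =
      wildPart n (intU α hα) (intU β hβ) := by
  set a := intU α hα
  set b := intU β hβ
  have htame : ∀ v : HeightOneSpectrum (𝓞 K),
      (if (n : 𝓞 K) ∈ v.asIdeal then 1 else hilbertSymbol n v a b) =
        (if (n : 𝓞 K) ∈ v.asIdeal then 1 else residueSymbol n v β ^ ord v a) *
          (if (n : 𝓞 K) ∈ v.asIdeal then 1 else residueSymbol n v α ^ ord v b)⁻¹ := fun v => by
    split_ifs with hn
    · rw [inv_one, one_mul]
    rcases hco v hn with h | h
    · rw [hilbertSymbol_symm n v b a, hilbertSymbol_eq_residueSymbol n hn h hα b,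
        (ord_intU_eq_zero_iff v hα).2 h, zpow_zero, one_mul]
    · rw [hilbertSymbol_eq_residueSymbol n hn h hβ a, (ord_intU_eq_zero_iff v hβ).2 h, zpow_zero,
        inv_one, mul_one]
  have hsup := hilbertSymbol_finite_support n a b
  have h := prod_hilbertSymbol n a b
  have hbad : (Function.mulSupport fun v : HeightOneSpectrum (𝓞 K) =>
      if (n : 𝓞 K) ∈ v.asIdeal then hilbertSymbol n v a b else 1).Finite :=
    hsup.subset fun v hv h0 => hv (by
      simp only [show hilbertSymbol n v a b = 1 from h0, ite_self])
  have hgood : (Function.mulSupport fun v : HeightOneSpectrum (𝓞 K) =>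
      if (n : 𝓞 K) ∈ v.asIdeal then 1 else hilbertSymbol n v a b).Finite :=
    hsup.subset fun v hv h0 => hv (by
      simp only [show hilbertSymbol n v a b = 1 from h0, ite_self])
  rw [finprod_congr (g := fun v => (if (n : 𝓞 K) ∈ v.asIdeal then hilbertSymbol n v a b else 1) *
      (if (n : 𝓞 K) ∈ v.asIdeal then 1 else hilbertSymbol n v a b)) fun v => by
      split_ifs
      · rw [mul_one]
      · rw [one_mul],
    finprod_mul_distrib hbad hgood, finprod_congr htame,
    finprod_mul_distrib (residueProd_finite_support n β a)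
      ((residueProd_finite_support n α b).subset fun v hv h0 => hv (by
        simp only at h0 ⊢
        rw [h0, inv_one])),
    finprod_inv_distrib, mul_right_comm] at h
  rw [wildPart, eq_inv_of_mul_eq_one_left h, residueProd, residueProd, mul_inv_rev, inv_inv]

/-- **The supplementary laws**: units and the divisors of `n`. -/
theorem residueProd_supplement {ε β : 𝓞 K} (hε : ε ≠ 0) (hβ : β ≠ 0)
    (h : ∀ v : HeightOneSpectrum (𝓞 K), (n : 𝓞 K) ∉ v.asIdeal → ε ∉ v.asIdeal) :
    residueProd n ε (intU β hβ) = wildPart n (intU ε hε) (intU β hβ) := by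
  have h1 := residueProd_reciprocity n hε hβ fun v hv => Or.inl (h v hv)
  rwa [residueProd_eq_one n (b := intU ε hε) fun v hv =>
    (ord_intU_eq_zero_iff v hε).2 (h v hv), inv_one, mul_one] at h1

/-- For `n > 2` only the primes dividing `n` matter. -/
theorem wildPart_of_two_lt (hn : 2 < n) (a b : Kˣ) :
    wildPart n a b = ∏ᶠ v, if (n : 𝓞 K) ∈ v.asIdeal then hilbertSymbol n v a b else 1 := by
  rw [wildPart, Finset.prod_eq_one fun w _ => hilbertSymbolInf_eq_one_of_two_lt n hn w a b, mul_one]

end FA.HilbertN

end
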