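import Fermat.Agent.HilbertN.Symbol
import Fermat.Agent.GaussValuation.Basic

/-!
# The power residue symbol and the tame symbol

At a prime `v` prime to `n` an integer `x` prime to `v` has as residue symbol the root of unity
congruent to `x ^ ((N v - 1) / n)`; it is the factor of the Frobenius element on `ⁿ√x`, so the
Hilbert symbol there is `(x / v) ^ ord a`.
-/

set_option autoImplicit false
set_option linter.unusedSectionVars false
set_option linter.style.haveILetI false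

noncomputable section

open NumberField IsDedekindDomain Finset WithZero IsMulCommutative
open FA.ArtinRec FA.NormResidue
open scoped Pointwise Classical

namespace FA.HilbertN

universe u

variable {K : Type u} [Field K] [NumberField K] (n : ℕ) [NeZero n] [HasEnoughRootsOfUnity K n]

theorem coe_pow_eq_one (ξ : rootsOfUnity n K) : ((ξ : Kˣ) : K) ^ n = 1 := by
  rw [← Units.val_pow_eq_pow_val, (mem_rootsOfUnity n _).1 ξ.2, Units.val_one]

/-- A root of unity as an algebraic integer. -/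
def rootInt (ξ : rootsOfUnity n K) : 𝓞 K :=
  ⟨((ξ : Kˣ) : K), IsIntegral.of_pow (NeZero.pos n)
    (by rw [coe_pow_eq_one]; exact isIntegral_one)⟩

theorem rootInt_val (ξ : rootsOfUnity n K) : ((rootInt n ξ : 𝓞 K) : K) = ((ξ : Kˣ) : K) := rfl

theorem rootInt_mul (ξ η : rootsOfUnity n K) :
    rootInt n (ξ * η) = rootInt n ξ * rootInt n η := RingOfIntegers.ext rfl

theorem rootInt_one : rootInt n (1 : rootsOfUnity n K) = 1 := RingOfIntegers.ext rfl

theorem rootInt_pow_eq_one (ξ : rootsOfUnity n K) : rootInt n ξ ^ n = 1 := RingOfIntegers.ext (coe_pow_eq_one n ξ)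

variable {v : HeightOneSpectrum (𝓞 K)}

/-- Reduction is injective. -/
theorem eq_of_rootInt_sub_mem (hv : (n : 𝓞 K) ∉ v.asIdeal) {ξ η : rootsOfUnity n K}
    (h : rootInt n ξ - rootInt n η ∈ v.asIdeal) : ξ = η := by
  haveI := v.isPrime
  have h1 := FA.GaussValuation.eq_of_mk_eq hv (rootInt_pow_eq_one n ξ) (rootInt_pow_eq_one n η)
    (Ideal.Quotient.eq.2 h)
  exact Subtype.ext (Units.ext (congrArg (fun x : 𝓞 K => (x : K)) h1))

/-- `n` divides `N v - 1`. -/
theorem dvd_absNorm_sub_one (hv : (n : 𝓞 K) ∉ v.asIdeal) : n ∣ Ideal.absNorm v.asIdeal - 1 := by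
  haveI := v.isMaximal
  haveI : Finite (𝓞 K ⧸ v.asIdeal) := Ideal.finiteQuotientOfFreeOfNeBot _ v.ne_bot
  let := Fintype.ofFinite (𝓞 K ⧸ v.asIdeal)
  let := Ideal.Quotient.field v.asIdeal
  obtain ⟨ζ, hζ⟩ := HasEnoughRootsOfUnity.exists_primitiveRoot K n
  have hi : IsIntegral ℤ ζ := IsIntegral.of_pow (NeZero.pos n)
    (by rw [hζ.pow_eq_one]; exact isIntegral_one)
  have hz : IsPrimitiveRoot (⟨ζ, hi⟩ : 𝓞 K) n :=
    IsPrimitiveRoot.of_map_of_injective (f := algebraMap (𝓞 K) K) hζ RingOfIntegers.coe_injective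
  have hz' := FA.GaussValuation.isPrimitiveRoot_mk hv hz
  rw [Ideal.absNorm_apply, Submodule.cardQuot_apply, Nat.card_eq_fintype_card]
  exact hz'.dvd_of_pow_eq_one _ (FiniteField.pow_card_sub_one_eq_one _ (hz'.ne_zero (NeZero.ne n)))

theorem one_lt_absNorm (v : HeightOneSpectrum (𝓞 K)) : 1 < Ideal.absNorm v.asIdeal :=
  lt_of_le_of_ne (Nat.one_le_iff_ne_zero.2 (by simpa [Ideal.absNorm_eq_zero_iff] using v.ne_bot))
    (Ne.symm fun h => v.isPrime.ne_top (Ideal.absNorm_eq_one_iff.1 h))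

/-- **The power residue symbol** `(x / v)`. -/
def residueSymbol (v : HeightOneSpectrum (𝓞 K)) (x : 𝓞 K) : rootsOfUnity n K :=
  if h : ∃ ξ : rootsOfUnity n K,
    x ^ ((Ideal.absNorm v.asIdeal - 1) / n) - rootInt n ξ ∈ v.asIdeal then h.choose else 1

section kummer

variable (hv : (n : 𝓞 K) ∉ v.asIdeal) {x : 𝓞 K} (hx : x ∉ v.asIdeal) (hx0 : x ≠ 0)

/-- The root as an algebraic integer. -/
def rootI : 𝓞 (RootOne n (intU x hx0)) :=
  ⟨root n (intU x hx0), IsIntegral.of_pow (NeZero.pos n) (by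
    rw [root_pow, intU_val]
    exact ((algebraMap (𝓞 K) (𝓞 (RootOne n (intU x hx0))) x).2))⟩

theorem rootI_pow : rootI n hx0 ^ n = algebraMap (𝓞 K) _ x := RingOfIntegers.ext (root_pow n (intU x hx0))

include hx in
theorem rootI_notMem {Q : HeightOneSpectrum (𝓞 (RootOne n (intU x hx0)))} (hQ : belowP K Q = v) :
    rootI n hx0 ∉ Q.asIdeal := fun h => hx (by
  have h1 := Q.asIdeal.pow_mem_of_mem h n (NeZero.pos n)
  rw [rootI_pow] at h1
  rw [← hQ]
  exact h1)

theorem smul_rootI (σ : RootOne n (intU x hx0) ≃ₐ[K] RootOne n (intU x hx0)) :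
    σ • rootI n hx0 =
      algebraMap (𝓞 K) _ (rootInt n (kummerChar n (root_pow n (intU x hx0)) σ)) * rootI n hx0 :=
  RingOfIntegers.ext (kummerChar_spec n (root_pow n (intU x hx0)) σ)

include hv hx in
/-- **Unramified**, prime to `n` and to the element. -/
theorem not_isRam_rootOne : ¬ IsRam (RootOne n (intU x hx0)) v := by
  rintro ⟨Q, hQ, hne⟩
  haveI := Q.isPrime
  refine hne ((Subgroup.eq_bot_iff_forall _).2 fun σ hσ => ?_)
  have h1 : σ • rootI n hx0 - rootI n hx0 ∈ Q.asIdeal := hσ (rootI n hx0)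
  rw [smul_rootI, ← sub_one_mul] at h1
  have h2 := ((Ideal.IsPrime.mem_or_mem ‹_› h1).resolve_right (rootI_notMem n hx hx0 hQ))
  rw [← map_one (algebraMap (𝓞 K) (𝓞 (RootOne n (intU x hx0)))), ← map_sub, ← rootInt_one n] at h2
  refine kummerChar_root_injective n _ ((eq_of_rootInt_sub_mem n hv ?_).trans (map_one _).symm)
  rw [← hQ]
  exact h2

include hv hx in
/-- **Frobenius on the root.** -/
theorem pow_sub_frob_mem :
    x ^ ((Ideal.absNorm v.asIdeal - 1) / n) -
      rootInt n (kummerChar n (root_pow n (intU x hx0)) (artinAt (RootOne n (intU x hx0)) v)) ∈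
        v.asIdeal := by
  set L := RootOne n (intU x hx0)
  set e := (Ideal.absNorm v.asIdeal - 1) / n
  obtain ⟨Q, hQ, hτ⟩ := artinAt_spec (L := L) v
  haveI := Q.isPrime
  have h1 : artinAt L v • rootI n hx0 -
      rootI n hx0 ^ Nat.card (𝓞 K ⧸ Q.asIdeal.under (𝓞 K)) ∈ Q.asIdeal := hτ (rootI n hx0)
  have hcard : Nat.card (𝓞 K ⧸ Q.asIdeal.under (𝓞 K)) = n * e + 1 := by
    rw [show Q.asIdeal.under (𝓞 K) = v.asIdeal from congrArg HeightOneSpectrum.asIdeal hQ,
      ← Submodule.cardQuot_apply, ← Ideal.absNorm_apply,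
      Nat.mul_div_cancel' (dvd_absNorm_sub_one n hv), Nat.sub_add_cancel (one_lt_absNorm v).le]
  rw [hcard, smul_rootI, pow_succ, pow_mul, rootI_pow, ← sub_mul, ← map_pow, ← map_sub] at h1
  have h2 := ((Ideal.IsPrime.mem_or_mem ‹_› h1).resolve_right (rootI_notMem n hx hx0 hQ))
  rw [← neg_sub, neg_mem_iff]
  exact (SetLike.ext_iff.1 (congrArg HeightOneSpectrum.asIdeal hQ) _).1 h2

end kummer

variable (hv : (n : 𝓞 K) ∉ v.asIdeal)
include hv

theorem residueSymbol_spec {x : 𝓞 K} (hx : x ∉ v.asIdeal) :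
    x ^ ((Ideal.absNorm v.asIdeal - 1) / n) - rootInt n (residueSymbol n v x) ∈ v.asIdeal := by
  have h : ∃ ξ : rootsOfUnity n K,
      x ^ ((Ideal.absNorm v.asIdeal - 1) / n) - rootInt n ξ ∈ v.asIdeal :=
    ⟨_, pow_sub_frob_mem n hv hx fun h => hx (h ▸ v.asIdeal.zero_mem)⟩
  rw [residueSymbol, dif_pos h]
  exact h.choose_spec

/-- Uniqueness. -/
theorem residueSymbol_eq {x : 𝓞 K} (hx : x ∉ v.asIdeal) {ξ : rootsOfUnity n K}
    (h : x ^ ((Ideal.absNorm v.asIdeal - 1) / n) - rootInt n ξ ∈ v.asIdeal) :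
    residueSymbol n v x = ξ :=
  eq_of_rootInt_sub_mem n hv (by
    have h1 := v.asIdeal.sub_mem h (residueSymbol_spec n hv hx)
    rwa [sub_sub_sub_cancel_left] at h1)

theorem residueSymbol_mul {x y : 𝓞 K} (hx : x ∉ v.asIdeal) (hy : y ∉ v.asIdeal) :
    residueSymbol n v (x * y) = residueSymbol n v x * residueSymbol n v y := by
  refine residueSymbol_eq n hv (fun h => (v.isPrime.mem_or_mem h).elim hx hy) ?_
  rw [rootInt_mul, mul_pow]
  set e := (Ideal.absNorm v.asIdeal - 1) / n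
  rw [show x ^ e * y ^ e - rootInt n (residueSymbol n v x) * rootInt n (residueSymbol n v y) =
    (x ^ e - rootInt n (residueSymbol n v x)) * y ^ e +
      rootInt n (residueSymbol n v x) * (y ^ e - rootInt n (residueSymbol n v y)) by ring]
  exact v.asIdeal.add_mem (v.asIdeal.mul_mem_right _ (residueSymbol_spec n hv hx))
    (v.asIdeal.mul_mem_left _ (residueSymbol_spec n hv hy))

theorem residueSymbol_congr {x y : 𝓞 K} (hx : x ∉ v.asIdeal) (h : x - y ∈ v.asIdeal) :
    residueSymbol n v x = residueSymbol n v y := by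
  have hy : y ∉ v.asIdeal := fun hy => hx (by simpa using v.asIdeal.add_mem h hy)
  refine (residueSymbol_eq n hv hy ?_).symm
  have h1 : y ^ ((Ideal.absNorm v.asIdeal - 1) / n) - x ^ ((Ideal.absNorm v.asIdeal - 1) / n) ∈
      v.asIdeal :=
    Ideal.mem_of_dvd _ (dvd_refl _) (by
      obtain ⟨c, hc⟩ := sub_dvd_pow_sub_pow y x ((Ideal.absNorm v.asIdeal - 1) / n)
      rw [hc]
      exact v.asIdeal.mul_mem_right _ (by rw [← neg_sub]; exact v.asIdeal.neg_mem h))
  have h2 := v.asIdeal.add_mem h1 (residueSymbol_spec n hv hx)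
  rwa [sub_add_sub_cancel] at h2

/-- **The criterion of Euler.** -/
theorem residueSymbol_eq_one_iff {x : 𝓞 K} (hx : x ∉ v.asIdeal) :
    residueSymbol n v x = 1 ↔ ∃ y : 𝓞 K, x - y ^ n ∈ v.asIdeal := by
  haveI := v.isMaximal
  haveI : Finite (𝓞 K ⧸ v.asIdeal) := Ideal.finiteQuotientOfFreeOfNeBot _ v.ne_bot
  let := Fintype.ofFinite (𝓞 K ⧸ v.asIdeal)
  let := Ideal.Quotient.field v.asIdeal
  set q := Ideal.absNorm v.asIdeal with hq
  have hcard : Fintype.card (𝓞 K ⧸ v.asIdeal) = q := by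
    rw [hq, Ideal.absNorm_apply, Submodule.cardQuot_apply, Nat.card_eq_fintype_card]
  have hmk : Ideal.Quotient.mk v.asIdeal x ≠ 0 := fun h => hx (Ideal.Quotient.eq_zero_iff_mem.1 h)
  have hd := dvd_absNorm_sub_one n hv
  constructor
  · intro h
    have h1 := residueSymbol_spec n hv hx
    rw [h, rootInt_one, ← Ideal.Quotient.eq, map_pow, map_one] at h1
    set X := Units.mk0 _ hmk
    obtain ⟨g, hg⟩ := IsCyclic.exists_generator (α := (𝓞 K ⧸ v.asIdeal)ˣ)
    obtain ⟨i, hi⟩ := Subgroup.mem_zpowers_iff.1 (hg X)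
    have hX : X ^ ((q - 1) / n) = 1 := Units.ext (by simpa [X] using h1)
    rw [← hi, ← zpow_natCast, ← zpow_mul, ← orderOf_dvd_iff_zpow_eq_one,
      orderOf_eq_card_of_forall_mem_zpowers hg, Nat.card_units, Nat.card_eq_fintype_card, hcard] at hX
    have he : (((q - 1) / n : ℕ) : ℤ) ≠ 0 := by
      exact_mod_cast (Nat.div_pos (Nat.le_of_dvd (by have := one_lt_absNorm v; omega) hd)
        (NeZero.pos n)).ne'
    have hni : (n : ℤ) ∣ i := by
      refine Int.dvd_of_mul_dvd_mul_right he ?_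
      rw [← Nat.cast_mul, Nat.mul_div_cancel' hd]
      exact hX
    obtain ⟨j, rfl⟩ := hni
    obtain ⟨y, hy⟩ := Ideal.Quotient.mk_surjective ((g ^ j : (𝓞 K ⧸ v.asIdeal)ˣ) : 𝓞 K ⧸ v.asIdeal)
    refine ⟨y, Ideal.Quotient.eq.1 ?_⟩
    rw [map_pow, hy, ← Units.val_pow_eq_pow_val, ← zpow_natCast, ← zpow_mul, mul_comm, hi]
    rfl
  · rintro ⟨y, hy⟩
    refine residueSymbol_eq n hv hx ?_
    rw [rootInt_one, ← Ideal.Quotient.eq, map_pow, map_one, Ideal.Quotient.eq.2 hy, map_pow,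
      ← pow_mul, Nat.mul_div_cancel' hd]
    show _ ^ (q - 1) = 1
    rw [← hcard]
    refine FiniteField.pow_card_sub_one_eq_one _ fun h => hmk ?_
    rw [Ideal.Quotient.eq.2 hy, map_pow, h, zero_pow (NeZero.ne n)]

/-- **The tame symbol.** -/
theorem hilbertSymbol_eq_residueSymbol {x : 𝓞 K} (hx : x ∉ v.asIdeal) (hx0 : x ≠ 0) (a : Kˣ) :
    hilbertSymbol n v a (intU x hx0) = residueSymbol n v x ^ ord v a := by
  rw [hilbertSymbol, normSymbol_of_not_isRam (not_isRam_rootOne n hv hx hx0), map_zpow,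
    residueSymbol_eq n hv hx (pow_sub_frob_mem n hv hx hx0)]

/-- Two units: no symbol. -/
theorem hilbertSymbol_units {a b : Kˣ} (ha : ord v a = 0) (hb : ord v b = 0) :
    hilbertSymbol n v a b = 1 := by
  obtain ⟨s, x, hs, hsx⟩ := exists_clear (K := K) (L := K) (v := v) (z := (b : K)) fun Q hQ => by
    rw [show Q = v from HeightOneSpectrum.ext
      ((Ideal.comap_id Q.asIdeal).symm.trans (congrArg HeightOneSpectrum.asIdeal hQ)),
      valuation_eq_exp, hb, neg_zero, exp_zero]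
  have hs0 : s ≠ 0 := fun h => hs (h ▸ v.asIdeal.zero_mem)
  have hx0 : x ≠ 0 := fun h => by
    rw [h, show ((0 : 𝓞 K) : K) = 0 from rfl, mul_eq_zero] at hsx
    rcases hsx with h1 | h1
    · exact hs0 (RingOfIntegers.coe_injective (((map_eq_zero _).1 h1).trans (map_zero _).symm))
    · exact b.ne_zero h1
  have e : intU s hs0 * b = intU x hx0 := Units.ext (by
    rw [Units.val_mul, intU_val, intU_val]
    exact hsx)
  have hx : x ∉ v.asIdeal := (ord_intU_eq_zero_iff v hx0).1 (by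
    rw [← e, ord_mul, hb, (ord_intU_eq_zero_iff v hs0).2 hs, add_zero])
  have h := hilbertSymbol_mul_right n v a (intU s hs0) b
  rw [e, hilbertSymbol_eq_residueSymbol n hv hx, hilbertSymbol_eq_residueSymbol n hv hs, ha,
    zpow_zero, zpow_zero, one_mul] at h
  exact h.symm

end FA.HilbertN

end
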