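import Fermat.Agent.ArtinReciprocity.Places
import Mathlib.FieldTheory.KummerExtension
import Mathlib.RingTheory.RootsOfUnity.EnoughRootsOfUnity

/-!
# The field of the `n`-th roots

Over a number field with the `n`-th roots of unity, for any `n`, the field of the roots of finitely
many elements is abelian; an `n`-th root gives a character of the Galois group, and `x ^ n - a` is a
norm from the field of the roots of `a`.
-/

set_option autoImplicit false
set_option linter.unusedSectionVars false
set_option linter.style.haveILetI false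

noncomputable section

open NumberField IsDedekindDomain Polynomial
open scoped Classical

namespace FA.HilbertN

universe u w

variable {K : Type u} [Field K] [NumberField K] (n : ℕ) [NeZero n] (R : Finset Kˣ)

/-- The product of the `X ^ n - r`. -/
def rootPoly : K[X] := ∏ r ∈ R, (X ^ n - C (r : K))

theorem rootPoly_ne_zero : rootPoly n R ≠ 0 :=
  Finset.prod_ne_zero_iff.2 fun _ _ => X_pow_sub_C_ne_zero (NeZero.pos n) _

/-- The field of the roots. -/
abbrev RootField := (rootPoly n R).SplittingField

instance numberField_rootField : NumberField (RootField n R) := NumberField.of_module_finite K _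

instance isGalois_rootField : IsGalois K (RootField n R) :=
  haveI : Normal K (RootField n R) := Normal.of_isSplittingField (rootPoly n R)
  ⟨⟩

theorem exists_root_of_mem {r : Kˣ} (hr : r ∈ R) :
    ∃ w : RootField n R, w ^ n = algebraMap K (RootField n R) r := by
  have h : Splits ((X ^ n - C (r : K)).map (algebraMap K (RootField n R))) :=
    (SplittingField.splits (rootPoly n R)).of_dvd
      (Polynomial.map_ne_zero (rootPoly_ne_zero n R))
      (Polynomial.map_dvd _ (Finset.dvd_prod_of_mem (fun r : Kˣ => X ^ n - C (r : K)) hr))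
  obtain ⟨w, hw⟩ := h.exists_eval_eq_zero (by
    rw [Polynomial.map_sub, Polynomial.map_pow, map_X, map_C, degree_X_pow_sub_C (NeZero.pos n)]
    exact_mod_cast NeZero.ne n)
  exact ⟨w, by simpa [sub_eq_zero] using hw⟩

/-- An automorphism is determined by the roots. -/
theorem eq_of_agree {σ τ : RootField n R ≃ₐ[K] RootField n R}
    (h : ∀ r ∈ R, ∀ w : RootField n R, w ^ n = algebraMap K (RootField n R) r → σ w = τ w) :
    σ = τ := by
  refine AlgEquiv.coe_toAlgHom_injective (AlgHom.ext_of_adjoin_eq_top
    (SplittingField.adjoin_rootSet (rootPoly n R)) fun w hw => ?_)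
  have h2 : aeval w (∏ r ∈ R, (X ^ n - C (r : K))) = 0 := (mem_rootSet.1 hw).2
  rw [map_prod, Finset.prod_eq_zero_iff] at h2
  obtain ⟨r, hr, h2⟩ := h2
  exact h r hr w (by simpa [sub_eq_zero] using h2)

variable [HasEnoughRootsOfUnity K n] {L : Type w} [Field L] [Algebra K L] {a : Kˣ} {α : L}

theorem root_ne_zero (hα : α ^ n = algebraMap K L a) : α ≠ 0 := fun h => by
  rw [h, zero_pow (NeZero.ne n), eq_comm, map_eq_zero] at hα
  exact a.ne_zero hα

/-- Two roots differ by a root of unity of `K`. -/
theorem exists_mul_root (hα : α ^ n = algebraMap K L a) {β : L} (hβ : β ^ n = algebraMap K L a) :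
    ∃ ξ : rootsOfUnity n K, β = algebraMap K L ((ξ : Kˣ) : K) * α := by
  obtain ⟨ζ, hζ⟩ := HasEnoughRootsOfUnity.exists_primitiveRoot K n
  have h1 : (β / α) ^ n = 1 := by
    rw [div_pow, hα, hβ, div_self fun h => a.ne_zero ((map_eq_zero _).1 h)]
  obtain ⟨j, -, hj⟩ :=
    (hζ.map_of_injective (algebraMap K L).injective).eq_pow_of_pow_eq_one h1
  refine ⟨rootsOfUnity.mkOfPowEq (ζ ^ j) (by rw [pow_right_comm, hζ.pow_eq_one, one_pow]), ?_⟩
  rw [rootsOfUnity.val_mkOfPowEq_coe, map_pow, hj, div_mul_cancel₀ _ (root_ne_zero n hα)]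

theorem exists_kummerVal (hα : α ^ n = algebraMap K L a) (σ : L ≃ₐ[K] L) :
    ∃ ξ : rootsOfUnity n K, σ α = algebraMap K L ((ξ : Kˣ) : K) * α :=
  exists_mul_root n hα (by rw [← map_pow, hα, σ.commutes])

theorem algebraMap_root_inj (hα : α ^ n = algebraMap K L a) {ξ η : rootsOfUnity n K}
    (h : algebraMap K L ((ξ : Kˣ) : K) * α = algebraMap K L ((η : Kˣ) : K) * α) : ξ = η :=
  Subtype.ext (Units.ext ((algebraMap K L).injective (mul_right_cancel₀ (root_ne_zero n hα) h)))

/-- **The character of a root**: `σ α = χ(σ) α`. -/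
def kummerChar (hα : α ^ n = algebraMap K L a) : (L ≃ₐ[K] L) →* rootsOfUnity n K :=
  MonoidHom.mk' (fun σ => (exists_kummerVal n hα σ).choose) fun σ τ => by
    refine algebraMap_root_inj n hα ?_
    refine (exists_kummerVal n hα (σ * τ)).choose_spec.symm.trans
      ((congrArg σ (exists_kummerVal n hα τ).choose_spec).trans ?_)
    rw [map_mul, σ.commutes, Subgroup.coe_mul, Units.val_mul, map_mul (algebraMap K L)]
    exact (congrArg (_ * ·) (exists_kummerVal n hα σ).choose_spec).trans (by ring)

theorem kummerChar_spec (hα : α ^ n = algebraMap K L a) (σ : L ≃ₐ[K] L) :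
    σ α = algebraMap K L ((kummerChar n hα σ : Kˣ) : K) * α :=
  (exists_kummerVal n hα σ).choose_spec

theorem kummerChar_eq (hα : α ^ n = algebraMap K L a) {σ : L ≃ₐ[K] L} {ξ : rootsOfUnity n K}
    (h : σ α = algebraMap K L ((ξ : Kˣ) : K) * α) : kummerChar n hα σ = ξ :=
  algebraMap_root_inj n hα ((kummerChar_spec n hα σ).symm.trans h)

theorem kummerChar_eq_one_iff (hα : α ^ n = algebraMap K L a) {σ : L ≃ₐ[K] L} :
    kummerChar n hα σ = 1 ↔ σ α = α := by
  constructor
  · intro h
    have h1 := kummerChar_spec n hα σ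
    rw [h, Subgroup.coe_one, Units.val_one, map_one, one_mul] at h1
    exact h1
  · intro h
    refine kummerChar_eq n hα ?_
    rw [h, Subgroup.coe_one, Units.val_one, map_one, one_mul]

/-- The choice of the root does not matter. -/
theorem kummerChar_congr (hα : α ^ n = algebraMap K L a) {β : L}
    (hβ : β ^ n = algebraMap K L a) : kummerChar n hα = kummerChar n hβ := by
  refine MonoidHom.ext fun σ => (kummerChar_eq n hβ ?_).symm
  obtain ⟨ξ, rfl⟩ := exists_mul_root n hα hβ
  rw [map_mul, σ.commutes, kummerChar_spec n hα σ]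
  ring

theorem kummerChar_mul (hα : α ^ n = algebraMap K L a) {b : Kˣ} {β : L}
    (hβ : β ^ n = algebraMap K L b) (hαβ : (α * β) ^ n = algebraMap K L (a * b : Kˣ))
    (σ : L ≃ₐ[K] L) : kummerChar n hαβ σ = kummerChar n hα σ * kummerChar n hβ σ := by
  refine kummerChar_eq n hαβ ?_
  rw [map_mul, kummerChar_spec n hα σ, kummerChar_spec n hβ σ, Subgroup.coe_mul, Units.val_mul,
    map_mul]
  ring

variable {E : Type*} [Field E] [Algebra K E] [Algebra E L] [IsScalarTower K E L] [Normal K E]

theorem kummerChar_restrict {β : E} (hβ : β ^ n = algebraMap K E a)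
    (hα : α ^ n = algebraMap K L a) (σ : L ≃ₐ[K] L) :
    kummerChar n hβ (AlgEquiv.restrictNormalHom E σ) = kummerChar n hα σ := by
  have hβ' : (algebraMap E L β) ^ n = algebraMap K L a := by
    rw [← map_pow, hβ, ← IsScalarTower.algebraMap_apply]
  rw [kummerChar_congr n hα hβ']
  refine (kummerChar_eq n hβ' ?_).symm
  rw [← AlgEquiv.restrictNormal_commutes σ E β,
    show σ.restrictNormal E β = AlgEquiv.restrictNormalHom E σ β from rfl,
    kummerChar_spec n hβ, map_mul, ← IsScalarTower.algebraMap_apply]

/-! ### The field of the roots -/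

instance isMulCommutative_rootField :
    IsMulCommutative (RootField n R ≃ₐ[K] RootField n R) := by
  refine ⟨⟨fun σ τ => eq_of_agree n R fun r _ w hw => ?_⟩⟩
  show σ (τ w) = τ (σ w)
  rw [kummerChar_spec n hw σ, kummerChar_spec n hw τ, map_mul, map_mul, σ.commutes, τ.commutes,
    kummerChar_spec n hw σ, kummerChar_spec n hw τ]
  ring

variable (a)

/-- The field of the roots of `a`. -/
abbrev RootOne := RootField n ({a} : Finset Kˣ)

/-- A root of `a`. -/
def root : RootOne n a := (exists_root_of_mem n {a} (Finset.mem_singleton_self a)).choose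

theorem root_pow : root n a ^ n = algebraMap K (RootOne n a) a :=
  (exists_root_of_mem n {a} (Finset.mem_singleton_self a)).choose_spec

theorem kummerChar_root_injective : Function.Injective (kummerChar n (root_pow n a)) := by
  rw [injective_iff_map_eq_one]
  intro σ hσ
  refine eq_of_agree n _ fun r hr w hw => ?_
  rw [Finset.mem_singleton] at hr
  subst hr
  rw [kummerChar_congr n (root_pow n r) hw, kummerChar_eq_one_iff] at hσ
  exact hσ

instance isCyclic_rootOne : IsCyclic (RootOne n a ≃ₐ[K] RootOne n a) :=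
  isCyclic_of_injective _ (kummerChar_root_injective n a)

/-- **`x ^ n - a` is a norm from the field of the roots of `a`.** -/
theorem exists_norm_eq_pow_sub (x : K) :
    ∃ y : RootOne n a, Algebra.norm K y = x ^ n - a := by
  obtain ⟨ζ, hζ⟩ := HasEnoughRootsOfUnity.exists_primitiveRoot K n
  set M := RootOne n a
  set χ := kummerChar n (root_pow n a)
  set H := χ.range
  haveI := Fintype.ofFinite (rootsOfUnity n K)
  haveI := Fintype.ofFinite (rootsOfUnity n K ⧸ H)
  haveI := Fintype.ofFinite H
  let f : rootsOfUnity n K → M := fun ξ =>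
    algebraMap K M x - algebraMap K M ((ξ : Kˣ) : K) * root n a
  have hall : ∏ ξ, f ξ = algebraMap K M (x ^ n - a) := by
    have h := congrArg (Polynomial.eval (algebraMap K M x)) (X_pow_sub_C_eq_prod
      (hζ.map_of_injective (algebraMap K M).injective) (NeZero.pos n) (root_pow n a))
    rw [eval_sub, eval_pow, eval_X, eval_C, eval_prod] at h
    rw [map_sub, map_pow, h]
    refine (Finset.prod_bij (fun i _ => rootsOfUnity.mkOfPowEq (ζ ^ i)
      (by rw [pow_right_comm, hζ.pow_eq_one, one_pow])) (fun i _ => Finset.mem_univ _)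
      (fun i hi j hj hij => ?_) (fun ξ _ => ?_) fun i _ => ?_).symm
    · have h1 := congrArg (fun t : rootsOfUnity n K => ((t : Kˣ) : K)) hij
      simp only [rootsOfUnity.val_mkOfPowEq_coe] at h1
      exact hζ.pow_inj (Finset.mem_range.1 hi) (Finset.mem_range.1 hj) h1
    · have hξ : ((ξ : Kˣ) : K) ^ n = 1 := by
        rw [← Units.val_pow_eq_pow_val, (mem_rootsOfUnity n _).1 ξ.2, Units.val_one]
      obtain ⟨i, hi, he⟩ := hζ.eq_pow_of_pow_eq_one hξ
      exact ⟨i, Finset.mem_range.2 hi, Subtype.ext (Units.ext (by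
        rw [rootsOfUnity.val_mkOfPowEq_coe, he]))⟩
    · simp only [f, rootsOfUnity.val_mkOfPowEq_coe, eval_sub, eval_X, eval_C, map_pow]
  refine ⟨∏ q : rootsOfUnity n K ⧸ H, f q.out, (algebraMap K M).injective ?_⟩
  have hbij : Function.Bijective fun p : (rootsOfUnity n K ⧸ H) × H => p.1.out * (p.2 : _) := by
    refine ⟨fun p p' h => ?_, fun ξ => ?_⟩
    · have hq : p.1 = p'.1 := by
        have h1 := congrArg (QuotientGroup.mk (s := H)) h
        simpa [QuotientGroup.mk_mul_of_mem _ p.2.2, QuotientGroup.mk_mul_of_mem _ p'.2.2] using h1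
      refine Prod.ext hq (Subtype.ext ?_)
      simp only [hq, mul_right_inj] at h
      exact h
    · refine ⟨(QuotientGroup.mk ξ, ⟨(QuotientGroup.mk (s := H) ξ).out⁻¹ * ξ,
        QuotientGroup.eq.1 (QuotientGroup.out_eq' _)⟩), mul_inv_cancel_left _ _⟩
  rw [← hall, Algebra.norm_eq_prod_automorphisms, ← hbij.prod_comp, Fintype.prod_prod_type]
  simp only [map_prod]
  rw [Finset.prod_comm]
  refine Finset.prod_congr rfl fun q _ => ?_
  refine Eq.trans ?_ ((MonoidHom.ofInjective (f := χ)
    (kummerChar_root_injective n a)).toEquiv.prod_comp (fun h : H => f (q.out * h)))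
  refine Fintype.prod_congr _ _ fun σ => ?_
  show σ (f q.out) = f (q.out * χ σ)
  simp only [f, map_sub, map_mul, AlgEquiv.commutes, kummerChar_spec n (root_pow n a) σ,
    Subgroup.coe_mul, Units.val_mul]
  ring

end FA.HilbertN

end
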