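import Fermat.Agent.NormResidue.Kernel
import Fermat.Agent.HilbertN.RootField

/-!
# The `n`-th Hilbert symbol

Over a number field with the `n`-th roots of unity `(a, b)_v` is the factor by which the norm
residue symbol of `a` in the field of the roots of `b` moves a root.  It is bilinear and skew
symmetric, its kernel in `a` is the group of local norms, and the product over all places is `1`.
-/

set_option autoImplicit false
set_option linter.unusedSectionVars false
set_option linter.style.haveILetI false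

noncomputable section

open NumberField NumberField.InfinitePlace IsDedekindDomain Finset WithZero IsMulCommutative
open FA.ArtinRec FA.NormResidue
open FA.HasseCyclic (nearOne locNorms mem_locNorms norm_pos_of_ramified)
open scoped Classical

namespace FA.HilbertN

universe u w

variable {K : Type u} [Field K] [NumberField K] (n : ℕ) [NeZero n] [HasEnoughRootsOfUnity K n]

/-- **The `n`-th Hilbert symbol at a prime.** -/
def hilbertSymbol (v : HeightOneSpectrum (𝓞 K)) (a b : Kˣ) : rootsOfUnity n K :=
  kummerChar n (root_pow n b) (normSymbol (RootOne n b) v a)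

/-- **The `n`-th Hilbert symbol at an infinite place.** -/
def hilbertSymbolInf (w : InfinitePlace K) (a b : Kˣ) : rootsOfUnity n K :=
  kummerChar n (root_pow n b) (infSymbol (RootOne n b) w a)

theorem hilbertSymbol_mul_left (v : HeightOneSpectrum (𝓞 K)) (a a' b : Kˣ) :
    hilbertSymbol n v (a * a') b = hilbertSymbol n v a b * hilbertSymbol n v a' b := by
  simp only [hilbertSymbol, map_mul]

theorem hilbertSymbolInf_mul_left (w : InfinitePlace K) (a a' b : Kˣ) :
    hilbertSymbolInf n w (a * a') b = hilbertSymbolInf n w a b * hilbertSymbolInf n w a' b := by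
  simp only [hilbertSymbolInf, map_mul]

section field

variable {L : Type w} [Field L] [NumberField L] [Algebra K L] [IsGalois K L]
  [IsMulCommutative (L ≃ₐ[K] L)] {b : Kˣ} {β : L}

/-- A field with a root of `b` contains the field of the roots of `b`. -/
theorem exists_algHom_rootOne (hβ : β ^ n = algebraMap K L b) :
    Nonempty (RootOne n b →ₐ[K] L) := by
  obtain ⟨ζ, hζ⟩ := HasEnoughRootsOfUnity.exists_primitiveRoot K n
  refine ⟨Polynomial.SplittingField.lift _ ?_⟩
  rw [rootPoly, Finset.prod_singleton, Polynomial.map_sub, Polynomial.map_pow, Polynomial.map_X,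
    Polynomial.map_C]
  exact X_pow_sub_C_splits_of_isPrimitiveRoot (hζ.map_of_injective (algebraMap K L).injective) hβ

/-- **The symbol in any abelian extension with a root of `b`.** -/
theorem hilbertSymbol_eq (hβ : β ^ n = algebraMap K L b) (v : HeightOneSpectrum (𝓞 K)) (a : Kˣ) :
    hilbertSymbol n v a b = kummerChar n hβ (normSymbol L v a) := by
  obtain ⟨f⟩ := exists_algHom_rootOne n hβ
  let := f.toRingHom.toAlgebra
  haveI : IsScalarTower K (RootOne n b) L := IsScalarTower.of_algebraMap_eq fun x => (f.commutes x).symm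
  rw [hilbertSymbol, ← restrict_normSymbol (L := L) (E := RootOne n b) v a,
    kummerChar_restrict n (root_pow n b) hβ]

theorem hilbertSymbolInf_eq (hβ : β ^ n = algebraMap K L b) (w : InfinitePlace K) (a : Kˣ) :
    hilbertSymbolInf n w a b = kummerChar n hβ (infSymbol L w a) := by
  obtain ⟨f⟩ := exists_algHom_rootOne n hβ
  let := f.toRingHom.toAlgebra
  haveI : IsScalarTower K (RootOne n b) L := IsScalarTower.of_algebraMap_eq fun x => (f.commutes x).symm
  rw [hilbertSymbolInf, ← restrict_infSymbol (L := L) (E := RootOne n b) w a,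
    kummerChar_restrict n (root_pow n b) hβ]

end field

theorem hilbertSymbol_mul_right (v : HeightOneSpectrum (𝓞 K)) (a b b' : Kˣ) :
    hilbertSymbol n v a (b * b') = hilbertSymbol n v a b * hilbertSymbol n v a b' := by
  obtain ⟨β, hβ⟩ := exists_root_of_mem n {b, b'} (Finset.mem_insert_self b {b'})
  obtain ⟨β', hβ'⟩ := exists_root_of_mem n {b, b'}
    (Finset.mem_insert_of_mem (Finset.mem_singleton_self b') : b' ∈ ({b, b'} : Finset Kˣ))
  have h : (β * β') ^ n = algebraMap K _ ((b * b' : Kˣ) : K) := by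
    rw [mul_pow, hβ, hβ', Units.val_mul, map_mul]
  rw [hilbertSymbol_eq n hβ, hilbertSymbol_eq n hβ', hilbertSymbol_eq n h, kummerChar_mul n hβ hβ' h]

theorem hilbertSymbolInf_mul_right (w : InfinitePlace K) (a b b' : Kˣ) :
    hilbertSymbolInf n w a (b * b') = hilbertSymbolInf n w a b * hilbertSymbolInf n w a b' := by
  obtain ⟨β, hβ⟩ := exists_root_of_mem n {b, b'} (Finset.mem_insert_self b {b'})
  obtain ⟨β', hβ'⟩ := exists_root_of_mem n {b, b'}
    (Finset.mem_insert_of_mem (Finset.mem_singleton_self b') : b' ∈ ({b, b'} : Finset Kˣ))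
  have h : (β * β') ^ n = algebraMap K _ ((b * b' : Kˣ) : K) := by
    rw [mul_pow, hβ, hβ', Units.val_mul, map_mul]
  rw [hilbertSymbolInf_eq n hβ, hilbertSymbolInf_eq n hβ', hilbertSymbolInf_eq n h,
    kummerChar_mul n hβ hβ' h]

/-- The symbol as a homomorphism in the second argument. -/
def hilbertHom (v : HeightOneSpectrum (𝓞 K)) (a : Kˣ) : Kˣ →* rootsOfUnity n K :=
  MonoidHom.mk' (hilbertSymbol n v a) (hilbertSymbol_mul_right n v a)

/-- **The kernel**: the local norms from the field of the roots. -/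
theorem hilbertSymbol_eq_one_iff (v : HeightOneSpectrum (𝓞 K)) (a b : Kˣ) :
    hilbertSymbol n v a b = 1 ↔ a ∈ locNorms (RootOne n b) v := by
  rw [← ker_normSymbol (L := RootOne n b) v, MonoidHom.mem_ker, hilbertSymbol,
    map_eq_one_iff _ (kummerChar_root_injective n b)]

theorem hilbertSymbol_norm (v : HeightOneSpectrum (𝓞 K)) (b : Kˣ) (y : (RootOne n b)ˣ) :
    hilbertSymbol n v (normU' y) b = 1 := by
  rw [hilbertSymbol, normSymbol_normU', map_one]

theorem hilbertSymbolInf_norm (w : InfinitePlace K) (b : Kˣ) (y : (RootOne n b)ˣ) :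
    hilbertSymbolInf n w (normU' y) b = 1 := by
  obtain ⟨σ, hσ⟩ := IsCyclic.exists_generator (α := RootOne n b ≃ₐ[K] RootOne n b)
  rw [hilbertSymbolInf, infSymbol_eq_one fun hw hr => ?_, map_one]
  exact norm_pos_of_ramified hσ hw hr y

theorem exists_normU'_eq {b u : Kˣ} {x : K} (hu : (u : K) = x ^ n - b) :
    ∃ y : (RootOne n b)ˣ, normU' y = u := by
  obtain ⟨y, hy⟩ := exists_norm_eq_pow_sub n b x
  have hy0 : y ≠ 0 := fun h => u.ne_zero (by rw [hu, ← hy, h, Algebra.norm_zero])
  exact ⟨Units.mk0 y hy0, Units.ext (hy.trans hu.symm)⟩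

/-- **`(x ^ n - b, b) = 1`.** -/
theorem hilbertSymbol_pow_sub {b u : Kˣ} {x : K} (hu : (u : K) = x ^ n - b)
    (v : HeightOneSpectrum (𝓞 K)) : hilbertSymbol n v u b = 1 := by
  obtain ⟨y, rfl⟩ := exists_normU'_eq n hu
  exact hilbertSymbol_norm n v b y

theorem hilbertSymbolInf_pow_sub {b u : Kˣ} {x : K} (hu : (u : K) = x ^ n - b)
    (w : InfinitePlace K) : hilbertSymbolInf n w u b = 1 := by
  obtain ⟨y, rfl⟩ := exists_normU'_eq n hu
  exact hilbertSymbolInf_norm n w b y

theorem neg_eq_pow_sub (b : Kˣ) : ((-b : Kˣ) : K) = (0 : K) ^ n - b := by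
  rw [zero_pow (NeZero.ne n), zero_sub, Units.val_neg]

/-- `(-a, a) = 1`. -/
theorem hilbertSymbol_neg_self (v : HeightOneSpectrum (𝓞 K)) (a : Kˣ) :
    hilbertSymbol n v (-a) a = 1 := hilbertSymbol_pow_sub n (neg_eq_pow_sub n a) v

/-- **Skew symmetry.** -/
theorem hilbertSymbol_symm (v : HeightOneSpectrum (𝓞 K)) (a b : Kˣ) :
    hilbertSymbol n v b a = (hilbertSymbol n v a b)⁻¹ := by
  have h := hilbertSymbol_neg_self n v (a * b)
  have ha := hilbertSymbol_neg_self n v a
  have hb := hilbertSymbol_neg_self n v b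
  have e1 : -(a * b) = -a * b := (neg_mul a b).symm
  have e2 : -(a * b) = a * -b := (mul_neg a b).symm
  rw [hilbertSymbol_mul_right] at h
  nth_rewrite 1 [e1] at h
  rw [e2, hilbertSymbol_mul_left, hilbertSymbol_mul_left, ha, hb, one_mul, mul_one] at h
  exact eq_inv_of_mul_eq_one_left h

theorem hilbertSymbolInf_symm (w : InfinitePlace K) (a b : Kˣ) :
    hilbertSymbolInf n w b a = (hilbertSymbolInf n w a b)⁻¹ := by
  have h := hilbertSymbolInf_pow_sub n (neg_eq_pow_sub n (a * b)) w
  have ha := hilbertSymbolInf_pow_sub n (neg_eq_pow_sub n a) w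
  have hb := hilbertSymbolInf_pow_sub n (neg_eq_pow_sub n b) w
  have e1 : -(a * b) = -a * b := (neg_mul a b).symm
  have e2 : -(a * b) = a * -b := (mul_neg a b).symm
  rw [hilbertSymbolInf_mul_right] at h
  nth_rewrite 1 [e1] at h
  rw [e2, hilbertSymbolInf_mul_left, hilbertSymbolInf_mul_left, ha, hb, one_mul, mul_one] at h
  exact eq_inv_of_mul_eq_one_left h

/-- Powers have trivial symbol. -/
theorem hilbertSymbol_pow_right (v : HeightOneSpectrum (𝓞 K)) (a c : Kˣ) :
    hilbertSymbol n v a (c ^ n) = 1 := by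
  show hilbertHom n v a (c ^ n) = 1
  rw [map_pow]
  exact Subtype.ext ((mem_rootsOfUnity n _).1 (hilbertHom n v a c).2)

/-- **Continuity**: close to `1` has trivial symbol with a given element, on either side. -/
theorem exists_level_hilbertSymbol (v : HeightOneSpectrum (𝓞 K)) (b : Kˣ) : ∃ k : ℕ,
    ∀ a ∈ nearOne v k, hilbertSymbol n v a b = 1 ∧ hilbertSymbol n v b a = 1 :=
  ⟨nrLevel K (RootOne n b), fun a ha => by
    have h : hilbertSymbol n v a b = 1 := by
      rw [hilbertSymbol, MonoidHom.mem_ker.1 (nearOne_le_ker_normSymbol v ha), map_one]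
    exact ⟨h, by rw [hilbertSymbol_symm, h, inv_one]⟩⟩

theorem hilbertSymbol_finite_support (a b : Kˣ) :
    (Function.mulSupport fun v => hilbertSymbol n v a b).Finite :=
  (normSymbol_finite_support (L := RootOne n b) a).subset fun v hv h =>
    hv (show hilbertSymbol n v a b = 1 by rw [hilbertSymbol, show normSymbol (RootOne n b) v a = 1 from h, map_one])

/-- **The product formula.** -/
theorem prod_hilbertSymbol (a b : Kˣ) :
    (∏ᶠ v, hilbertSymbol n v a b) * ∏ w : InfinitePlace K, hilbertSymbolInf n w a b = 1 := by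
  simp only [hilbertSymbol, hilbertSymbolInf]
  rw [← MonoidHom.map_finprod _ (f := fun v => normSymbol (RootOne n b) v a)
    (normSymbol_finite_support a), ← map_prod, ← map_mul, prod_normSymbol, map_one]

/-- At a place with a positive sign or no sign nothing happens. -/
theorem hilbertSymbolInf_eq_one {w : InfinitePlace K} {a : Kˣ}
    (h : ∀ hr : IsReal w, 0 < embedding_of_isReal hr (a : K)) (b : Kˣ) :
    hilbertSymbolInf n w a b = 1 := by
  rw [hilbertSymbolInf, infSymbol_eq_one fun _ hr => h hr, map_one]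

/-- For `n > 2` there is no real place. -/
theorem not_isReal_of_two_lt (hn : 2 < n) (w : InfinitePlace K) : ¬ IsReal w := fun hr => by
  obtain ⟨ζ, hζ⟩ := HasEnoughRootsOfUnity.exists_primitiveRoot K n
  have h := hζ.map_of_injective (embedding_of_isReal hr).injective
  rcases le_or_gt 0 (embedding_of_isReal hr ζ) with h0 | h0
  · exact h.ne_one (by omega) ((pow_eq_one_iff_of_nonneg h0 (NeZero.ne n)).1 h.pow_eq_one)
  · have h1 : (embedding_of_isReal hr ζ ^ 2) ^ n = 1 := by
      rw [← pow_mul, mul_comm, pow_mul, h.pow_eq_one, one_pow]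
    have h2 := (pow_eq_one_iff_of_nonneg (sq_nonneg _) (NeZero.ne n)).1 h1
    exact absurd (h.dvd_of_pow_eq_one 2 h2) fun hd => by
      have := Nat.le_of_dvd two_pos hd
      omega

theorem hilbertSymbolInf_eq_one_of_two_lt (hn : 2 < n) (w : InfinitePlace K) (a b : Kˣ) :
    hilbertSymbolInf n w a b = 1 :=
  hilbertSymbolInf_eq_one n (fun hr => absurd hr (not_isReal_of_two_lt n hn w)) b

end FA.HilbertN

end
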